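import Mathlib
import Fermat.Agent.Flat.Descent
import Fermat.Agent.DR.InertiaValue

/-!
# Non-flatness at `2` of ramified Kummer classes

`T` an abelian group with an action of inertia at `2` and an order of equivariant functions with
comultiplication, integral at `A`, separating points.  Then there is no pair `x, l` with `l ≠ 0`
fixed by inertia, `2 l = 0`, and `σ x = x` or `x + l` according to `σ √δ = ± √δ`, if `v₂(δ)` is odd.
-/

set_option autoImplicit false

noncomputable section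

namespace Fermat.Agent.P2.Flat2

open Fermat.Agent.Flat

local notation "Qbar" => AlgebraicClosure ℚ
local notation "GQ" => (AlgebraicClosure ℚ ≃ₐ[ℚ] AlgebraicClosure ℚ)

/-- An order of equivariant functions, locally at `A`. -/
structure Ord2 {T : Type*} [AddCommGroup T] (A : ValuationSubring Qbar) (act : GQ → T → T)
    (H : Set (T → Qbar)) : Prop where
  equiv : ∀ h ∈ H, ∀ σ ∈ A.inertiaSubgroupIn ℚ, ∀ t, h (act σ t) = σ (h t)
  sep : ∀ s t, (∀ h ∈ H, h s = h t) → s = t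
  comul : ∀ h ∈ H, ∃ (m : ℕ) (a b : Fin m → T → Qbar), (∀ i, a i ∈ H) ∧ (∀ i, b i ∈ H) ∧
    ∀ s t, h (s + t) = ∑ i, a i s * b i t
  int : ∀ h ∈ H, ∀ t, h t ∈ A
  fin : ∀ s t, ∃ g ∈ H, ∀ h ∈ H, A.valuation (h s - h t) ≤ A.valuation (g s - g t)

section Valuation

variable {A : ValuationSubring Qbar}

theorem two_lt_one (hA : A.LiesOverPrime 2) : A.valuation (2 : Qbar) < 1 := by
  have h := hA
  unfold ValuationSubring.LiesOverPrime at h
  have := (ValuationSubring.mem_nonunits_iff _).1 h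
  simpa using this

theorem two_ne_zero' : A.valuation (2 : Qbar) ≠ 0 :=
  (Valuation.ne_zero_iff _).2 two_ne_zero

theorem exists_zpow (hA : A.LiesOverPrime 2) {x : Qbar} (hx : x ≠ 0)
    (hfix : ∀ σ ∈ A.inertiaSubgroupIn ℚ, σ x = x) :
    ∃ k : ℤ, A.valuation x = A.valuation (2 : Qbar) ^ k := by
  obtain ⟨k, hk⟩ := Fermat.Agent.DR.InertiaValue.exists_zpow_of_inertia_fixed A Nat.prime_two hA
    hx hfix
  refine ⟨-k, ?_⟩
  rw [map_mul, map_zpow₀] at hk
  rw [zpow_neg]
  exact eq_inv_of_mul_eq_one_left (by simpa using hk)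

/-- **The quadratic estimate.** -/
theorem valuation_sub_le (hA : A.LiesOverPrime 2) {r : Qbar} {c : ℤ}
    (hr0 : r ≠ 0) (hrv : A.valuation r ^ 2 = A.valuation (2 : Qbar) ^ (2 * c + 1))
    (hr : ∀ σ ∈ A.inertiaSubgroupIn ℚ, σ r = r ∨ σ r = -r)
    {a a' : Qbar} (ha : a ∈ A)
    (h1 : ∀ σ ∈ A.inertiaSubgroupIn ℚ, σ r = r → σ a = a ∧ σ a' = a')
    (h2 : ∀ σ ∈ A.inertiaSubgroupIn ℚ, σ r = -r → σ a = a' ∧ σ a' = a) :
    A.valuation (a - a') ^ 2 ≤ A.valuation (2 : Qbar) ^ 3 := by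
  set v := A.valuation with hv
  have hv2 : v (2 : Qbar) < 1 := two_lt_one hA
  have hv0 : v (2 : Qbar) ≠ 0 := two_ne_zero'
  set u := (a + a') / 2 with hu
  set w := (a - a') / (2 * r) with hw
  have h20 : (2 : Qbar) ≠ 0 := two_ne_zero
  have haw : a = u + w * r := by
    rw [hu, hw]
    field_simp
    ring
  have hsub : a - a' = 2 * (w * r) := by
    rw [hw]
    field_simp
  have hfu : ∀ σ ∈ A.inertiaSubgroupIn ℚ, σ u = u := by
    intro σ hσ
    rcases hr σ hσ with h | h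
    · rw [hu, map_div₀, map_add, (h1 σ hσ h).1, (h1 σ hσ h).2, map_ofNat]
    · rw [hu, map_div₀, map_add, (h2 σ hσ h).1, (h2 σ hσ h).2, map_ofNat, add_comm]
  have hfw : ∀ σ ∈ A.inertiaSubgroupIn ℚ, σ w = w := by
    intro σ hσ
    rcases hr σ hσ with h | h
    · rw [hw, map_div₀, map_sub, map_mul, (h1 σ hσ h).1, (h1 σ hσ h).2, h, map_ofNat]
    · rw [hw, map_div₀, map_sub, map_mul, (h2 σ hσ h).1, (h2 σ hσ h).2, h, map_ofNat]
      rw [show (2 : Qbar) * -r = -(2 * r) by ring, div_neg, ← neg_div, neg_sub]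
  by_cases hw0 : w = 0
  · rw [hsub, hw0, zero_mul, mul_zero, map_zero, zero_pow two_ne_zero]
    exact zero_le'
  -- valuations
  obtain ⟨j, hj⟩ := exists_zpow hA hw0 hfw
  have hwr : v (w * r) ^ 2 = v (2 : Qbar) ^ (2 * (j + c) + 1) := by
    rw [map_mul, mul_pow, hrv, hj, ← zpow_natCast, ← zpow_mul, ← zpow_add₀ hv0]
    congr 1
    push_cast
    ring
  have hle1 : v (w * r) ≤ 1 := by
    by_cases hu0 : u = 0
    · have : w * r = a := by rw [haw, hu0, zero_add]
      rw [this]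
      exact (A.valuation_le_one_iff a).mpr ha
    · obtain ⟨i, hi⟩ := exists_zpow hA hu0 hfu
      have hne : v u ≠ v (w * r) := by
        intro h
        have h3 : v u ^ 2 = v (2 : Qbar) ^ (2 * i) := by
          rw [hi, ← zpow_natCast, ← zpow_mul]
          congr 1
          push_cast
          ring
        have h4 : v (2 : Qbar) ^ (2 * i) = v (2 : Qbar) ^ (2 * (j + c) + 1) := by
          rw [← h3, h, hwr]
        have h5 : 2 * i = 2 * (j + c) + 1 :=
          (zpow_right_strictAnti₀ (zero_lt_iff.2 hv0) hv2).injective h4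
        omega
      have hmax : v a = max (v u) (v (w * r)) := by
        rw [haw]
        exact Valuation.map_add_of_distinct_val v hne
      have h6 : v a ≤ 1 := (A.valuation_le_one_iff a).mpr ha
      rw [hmax] at h6
      exact (le_max_right _ _).trans h6
  have hk : 0 < 2 * (j + c) + 1 := by
    have h7 : v (w * r) ^ 2 ≤ 1 := pow_le_one₀ zero_le' hle1
    rw [hwr, ← zpow_zero (v (2 : Qbar))] at h7
    have h8 := (zpow_right_strictAnti₀ (zero_lt_iff.2 hv0) hv2).le_iff_ge.mp h7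
    omega
  have hwr1 : v (w * r) ^ 2 ≤ v (2 : Qbar) := by
    rw [hwr]
    conv_rhs => rw [← zpow_one (v (2 : Qbar))]
    exact (zpow_right_strictAnti₀ (zero_lt_iff.2 hv0) hv2).antitone (by omega)
  rw [hsub, map_mul, mul_pow, pow_succ (v (2 : Qbar)) 2]
  gcongr

end Valuation

variable {T : Type*} [AddCommGroup T] {A : ValuationSubring Qbar} {act : GQ → T → T}
  {H : Set (T → Qbar)}

/-- valuation of a finite sum of products with integral first factors -/
theorem valuation_sum_le {ι : Type*} (s : Finset ι) (a b : ι → Qbar) {γ : A.ValueGroup}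
    (ha : ∀ i ∈ s, a i ∈ A) (hb : ∀ i ∈ s, A.valuation (b i) ≤ γ) :
    A.valuation (∑ i ∈ s, a i * b i) ≤ γ := by
  refine Valuation.map_sum_le _ fun i hi => ?_
  rw [map_mul]
  have h1 : A.valuation (a i) ≤ 1 := (A.valuation_le_one_iff _).mpr (ha i hi)
  calc A.valuation (a i) * A.valuation (b i) ≤ 1 * γ := mul_le_mul' h1 (hb i hi)
    _ = γ := one_mul γ

/-- translation invariance of the difference ideals -/
theorem Ord2.diff_le (hH : Ord2 A act H) {s t x : T} {γ : A.ValueGroup}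
    (h : ∀ g ∈ H, A.valuation (g s - g t) ≤ γ) :
    ∀ g ∈ H, A.valuation (g (x + s) - g (x + t)) ≤ γ := by
  intro g hg
  obtain ⟨m, a, b, ha, hb, hab⟩ := hH.comul g hg
  rw [hab, hab, ← Finset.sum_sub_distrib]
  simp_rw [← mul_sub]
  exact valuation_sum_le _ _ _ (fun i _ => hH.int _ (ha i) x) fun i _ => h _ (hb i)

/-- **Non-flatness of ramified Kummer classes at `2`.** -/
theorem Ord2.eq_zero (hA : A.LiesOverPrime 2) (hH : Ord2 A act H) {x l : T} (hl2 : l + l = 0)
    (hl : ∀ σ ∈ A.inertiaSubgroupIn ℚ, act σ l = l)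
    {r : Qbar} {c : ℤ} (hr0 : r ≠ 0)
    (hrv : A.valuation r ^ 2 = A.valuation (2 : Qbar) ^ (2 * c + 1))
    (hr : ∀ σ ∈ A.inertiaSubgroupIn ℚ, σ r = r ∨ σ r = -r)
    (h1 : ∀ σ ∈ A.inertiaSubgroupIn ℚ, σ r = r → act σ x = x ∧ act σ (x + l) = x + l)
    (h2 : ∀ σ ∈ A.inertiaSubgroupIn ℚ, σ r = -r → act σ x = x + l ∧ act σ (x + l) = x) :
    l = 0 := by
  by_contra hl0
  have hv2 : A.valuation (2 : Qbar) < 1 := two_lt_one hA
  have hv0 : A.valuation (2 : Qbar) ≠ 0 := two_ne_zero'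
  obtain ⟨g, hg, hmax⟩ := hH.fin l 0
  set D := A.valuation (g l - g 0) with hD
  have hD0 : D ≠ 0 := by
    intro h
    apply hl0
    refine hH.sep _ _ fun h' hh' => ?_
    have h3 := hmax h' hh'
    rw [h, le_zero_iff, Valuation.zero_iff, sub_eq_zero] at h3
    exact h3
  -- `2 ∣ D`
  have h2D : A.valuation (2 : Qbar) ≤ D := by
    obtain ⟨m, a, b, ha, hb, hab⟩ := hH.comul g hg
    have e1 : g 0 = ∑ i, a i l * b i l := by rw [← hab, hl2]
    have e2 : g l = ∑ i, a i l * b i 0 := by rw [← hab, add_zero]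
    have e3 : g l = ∑ i, a i 0 * b i l := by rw [← hab, zero_add]
    have e4 : g 0 = ∑ i, a i 0 * b i 0 := by rw [← hab, add_zero]
    have e5 : ∑ i, (a i l - a i 0) * (b i l - b i 0) = -(2 * (g l - g 0)) := by
      have : ∀ i, (a i l - a i 0) * (b i l - b i 0) =
          a i l * b i l - a i l * b i 0 - a i 0 * b i l + a i 0 * b i 0 := fun i => by ring
      simp_rw [this]
      rw [Finset.sum_add_distrib, Finset.sum_sub_distrib, Finset.sum_sub_distrib, ← e1, ← e2, ← e3,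
        ← e4]
      ring
    have e6 : A.valuation (∑ i, (a i l - a i 0) * (b i l - b i 0)) ≤ D * D := by
      refine Valuation.map_sum_le _ fun i _ => ?_
      rw [map_mul]
      exact mul_le_mul' (hmax _ (ha i)) (hmax _ (hb i))
    rw [e5, Valuation.map_neg, map_mul] at e6
    exact le_of_mul_le_mul_right e6 (zero_lt_iff.mpr hD0)
  -- the difference ideal at `x`
  have hx : ∀ h ∈ H, A.valuation (h x - h (x + l)) ^ 2 ≤ A.valuation (2 : Qbar) ^ 3 := by
    intro h hh
    refine valuation_sub_le hA hr0 hrv hr (hH.int h hh x) (fun σ hσ hs => ?_) fun σ hσ hs => ?_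
    · rw [← hH.equiv h hh σ hσ, ← hH.equiv h hh σ hσ, (h1 σ hσ hs).1, (h1 σ hσ hs).2]
      exact ⟨rfl, rfl⟩
    · rw [← hH.equiv h hh σ hσ, ← hH.equiv h hh σ hσ, (h2 σ hσ hs).1, (h2 σ hσ hs).2]
      exact ⟨rfl, rfl⟩
  obtain ⟨e, he, hemax⟩ := hH.fin (x + l) x
  have hle := hH.diff_le (x := -x) hemax g hg
  rw [neg_add_cancel_left, neg_add_cancel] at hle
  have h3 : D ^ 2 ≤ A.valuation (2 : Qbar) ^ 3 := by
    calc D ^ 2 ≤ A.valuation (e (x + l) - e x) ^ 2 := pow_le_pow_left' hle 2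
      _ = A.valuation (e x - e (x + l)) ^ 2 := by rw [Valuation.map_sub_swap]
      _ ≤ _ := hx e he
  have h4 : A.valuation (2 : Qbar) ^ 2 ≤ A.valuation (2 : Qbar) ^ 3 :=
    (pow_le_pow_left' h2D 2).trans h3
  have h5 : A.valuation (2 : Qbar) ^ 3 < A.valuation (2 : Qbar) ^ 2 := by
    rw [pow_succ (A.valuation (2 : Qbar)) 2]
    calc A.valuation (2 : Qbar) ^ 2 * A.valuation (2 : Qbar) < A.valuation (2 : Qbar) ^ 2 * 1 :=
          mul_lt_mul_of_pos_left hv2 (pow_pos (zero_lt_iff.mpr hv0) 2)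
      _ = _ := mul_one _
  exact absurd h4 (not_le.mpr h5)

end Fermat.Agent.P2.Flat2
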