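import Mathlib
import Fermat.Agent.P2.Flat2.Abstract
import Fermat.Agent.RT.UnitRoot.Main
import Fermat.Agent.DR.AllInputs

/-!
# Non-flatness at `2`: the case of `J₀(M)`, `M` odd
-/

set_option autoImplicit false
set_option linter.unusedSectionVars false
set_option linter.overlappingInstances false
set_option linter.style.haveILetI false

open IsLocalRing AlgebraicCurve ModularCurve Fermat.Agent.RR Fermat.Agent.JRED Fermat.Agent.Flat
  Fermat.Agent.Flat.ConstModel
open scoped nonZeroDivisors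

noncomputable section

namespace Fermat.Agent.P2.Flat2

local notation "Qbar" => AlgebraicClosure ℚ
local notation "GQ" => (AlgebraicClosure ℚ ≃ₐ[ℚ] AlgebraicClosure ℚ)

theorem exists_max_of_finite {T : Type*} {A : ValuationSubring Qbar}
    (hA : A.LiesOverPrime 2) (H : Subalgebra (ZL 2) (T → Qbar)) (hfin : Module.Finite (ZL 2) H)
    (s t : T) : ∃ g ∈ H, ∀ h ∈ H, A.valuation (h s - h t) ≤ A.valuation (g s - g t) := by
  classical
  obtain ⟨S, hS⟩ := Module.finite_def.mp hfin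
  obtain ⟨g, -, hg⟩ := Finset.exists_max_image (insert 1 S)
    (fun g : H => A.valuation ((g : T → Qbar) s - (g : T → Qbar) t)) (Finset.insert_nonempty _ _)
  refine ⟨g, g.2, fun h hh => ?_⟩
  have hmem : (⟨h, hh⟩ : H) ∈ Submodule.span (ZL 2) (S : Set H) := hS ▸ Submodule.mem_top
  suffices ∀ h : H, h ∈ Submodule.span (ZL 2) (S : Set H) →
      A.valuation ((h : T → Qbar) s - (h : T → Qbar) t) ≤
        A.valuation ((g : T → Qbar) s - (g : T → Qbar) t) from this _ hmem
  intro h hh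
  induction hh using Submodule.span_induction with
  | mem h hh => exact hg h (Finset.mem_insert_of_mem (Finset.mem_coe.mp hh))
  | zero =>
    show A.valuation ((0 : T → Qbar) s - (0 : T → Qbar) t) ≤ _
    rw [Pi.zero_apply, Pi.zero_apply, sub_zero, map_zero]
    exact zero_le'
  | add a b _ _ ha hb =>
    have e : ((a + b : H) : T → Qbar) s - ((a + b : H) : T → Qbar) t =
        ((a : T → Qbar) s - (a : T → Qbar) t) + ((b : T → Qbar) s - (b : T → Qbar) t) := by
      show ((a : T → Qbar) s + (b : T → Qbar) s) - ((a : T → Qbar) t + (b : T → Qbar) t) = _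
      ring
    rw [e]
    exact Valuation.map_add_le _ ha hb
  | smul r h _ ih =>
    have e : ((r • h : H) : T → Qbar) s - ((r • h : H) : T → Qbar) t =
        algebraMap ℚ Qbar (r : ℚ) * ((h : T → Qbar) s - (h : T → Qbar) t) := by
      show (r • (h : T → Qbar)) s - (r • (h : T → Qbar)) t = _
      rw [Pi.smul_apply, Pi.smul_apply, Algebra.smul_def, Algebra.smul_def, mul_sub]
      rfl
    rw [e, map_mul]
    have h1 : A.valuation (algebraMap ℚ Qbar (r : ℚ)) ≤ 1 :=
      (A.valuation_le_one_iff _).mpr (Descent.mem_of_mem_ZL A Nat.prime_two hA r.2)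
    calc A.valuation (algebraMap ℚ Qbar (r : ℚ)) *
          A.valuation ((h : T → Qbar) s - (h : T → Qbar) t) ≤
        1 * A.valuation ((g : T → Qbar) s - (g : T → Qbar) t) := mul_le_mul' h1 ih
      _ = _ := one_mul _

/-- `J₀(M)[n]`, `M` odd, has an order at `2`. -/
theorem exists_ord2 {M : ℕ} [NeZero M] (hM : ¬ 2 ∣ M) {A : ValuationSubring Qbar}
    (hA : A.LiesOverPrime 2) (n : ℕ) (hn : 0 < n) :
    ∃ H : Set (Submodule.torsionBy ℤ (JZero M) (n : ℤ) → Qbar),
      Ord2 A (actTor M (n : ℤ)) H := by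
  have hp : Nat.Prime 2 := Nat.prime_two
  have hFact : Fact (Nat.Prime 2) := ⟨hp⟩
  have hπ : Function.Surjective (IsLocalRing.residue A) := IsLocalRing.residue_surjective
  have i1 : CharP (IsLocalRing.ResidueField A) 2 := ESFinal.charP_of_liesOver hπ hp hA
  have i2 : IsAlgClosed (IsLocalRing.ResidueField A) := isAlgClosed_of_surjective hπ
  have : NeZero 2 := ⟨hp.ne_zero⟩
  have hD : DegreeInput M (IsLocalRing.ResidueField A) :=
    degreeInput' (NeZero.ne M) hM
  have hG : GoodReduction M (IsLocalRing.ResidueField A) :=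
    JRED.goodReduction hπ hp (NeZero.ne M) hM
  have i5 := hD.functionField
  have i6 := hD.functionField'
  let Md : ModularConstRed M (IsLocalRing.residue A) := hD.modularConstRed hπ
  obtain ⟨r, hr⟩ := Md.exists_isPlaceMap hπ hD hG
  have hfin := (DR.allInputs.jan M).finite hn
  have hfinT : Finite (Submodule.torsionBy ℤ (JZero M) (n : ℤ)) := by
    refine (hfin.subset ?_).to_subtype
    intro x hx
    have h1 : (n : ℤ) • x = 0 := (Submodule.mem_torsionBy_iff _ _).mp hx
    show n • x = 0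
    rw [← natCast_zsmul]
    exact h1
  obtain ⟨H, hH1, hH2, hH3, hH4, hH5, -⟩ :=
    RT.UnitRoot.exists_order_torsion Md hπ hD hA hr hG (n : ℤ)
  exact ⟨(H : Set _), ⟨fun h hh σ _ t => hH2 h hh σ t, hH3, hH4, hH5,
    exists_max_of_finite hA H hH1⟩⟩

/-- **Non-flatness of ramified Kummer classes at `2`, in `J₀(M)`, `M` odd.** -/
theorem jZero_eq_zero {M : ℕ} [NeZero M] (hM : ¬ 2 ∣ M) {A : ValuationSubring Qbar}
    (hA : A.LiesOverPrime 2) {n : ℕ} (hn : 0 < n) {x l : JZero M} (hx : n • x = 0)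
    (hnl : n • l = 0) (hl2 : l + l = 0) (hl : ∀ σ ∈ A.inertiaSubgroupIn ℚ, σ • l = l)
    {r : Qbar} {c : ℤ} (hr0 : r ≠ 0)
    (hrv : A.valuation r ^ 2 = A.valuation (2 : Qbar) ^ (2 * c + 1))
    (hr : ∀ σ ∈ A.inertiaSubgroupIn ℚ, σ r = r ∨ σ r = -r)
    (h1 : ∀ σ ∈ A.inertiaSubgroupIn ℚ, σ r = r → σ • x = x)
    (h2 : ∀ σ ∈ A.inertiaSubgroupIn ℚ, σ r = -r → σ • x = x + l) : l = 0 := by
  obtain ⟨H, hH⟩ := exists_ord2 hM hA n hn
  have hmem : ∀ y : JZero M, n • y = 0 → y ∈ Submodule.torsionBy ℤ (JZero M) (n : ℤ) :=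
    fun y hy => by
      rw [Submodule.mem_torsionBy_iff, natCast_zsmul]
      exact hy
  have h3 : ∀ σ ∈ A.inertiaSubgroupIn ℚ, ∀ y : JZero M, σ • (y + l) = σ • y + l := by
    intro σ hσ y
    rw [smul_add, hl σ hσ]
  have h := hH.eq_zero hA (x := ⟨x, hmem x hx⟩) (l := ⟨l, hmem l hnl⟩) (Subtype.ext hl2)
    (fun σ hσ => Subtype.ext (hl σ hσ)) hr0 hrv hr
    (fun σ hσ hs => ⟨Subtype.ext (h1 σ hσ hs), Subtype.ext (by
      show σ • (x + l) = x + l
      rw [h3 σ hσ, h1 σ hσ hs])⟩)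
    (fun σ hσ hs => ⟨Subtype.ext (h2 σ hσ hs), Subtype.ext (by
      show σ • (x + l) = x
      rw [h3 σ hσ, h2 σ hσ hs, add_assoc, hl2, add_zero])⟩)
  exact congrArg Subtype.val h

end Fermat.Agent.P2.Flat2
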