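import Mathlib
import Fermat.Agent.P2.Flat2.Modular
import Fermat.Agent.P2.Mazur2k.Iterate
import Fermat.Agent.P2.Sel.Out
import Fermat.Agent.FrobExists

/-!
# The representation of the auxiliary curve does not occur in `J₀(M)[2]`, `M` odd
-/

set_option autoImplicit false
set_option linter.unusedSectionVars false
set_option linter.style.haveILetI false

open ModularCurve

noncomputable section

namespace Fermat.Agent.P2.Flat2

open Sel Mazur2k Matrix

local notation "Qbar" => AlgebraicClosure ℚ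
local notation "Γℚ" => (AlgebraicClosure ℚ ≃ₐ[ℚ] AlgebraicClosure ℚ)

section Matrices

theorem mat_ext_two {X Y : Matrix (Fin 2) (Fin 2) (ZMod 2)} (h00 : X 0 0 = Y 0 0)
    (h01 : X 0 1 = Y 0 1) (h10 : X 1 0 = Y 1 0) (h11 : X 1 1 = Y 1 1) : X = Y := by
  ext i j
  fin_cases i <;> fin_cases j <;> assumption

theorem mat_zero_iff {X : Matrix (Fin 2) (Fin 2) (ZMod 2)} :
    X = 0 ↔ X 0 0 = 0 ∧ X 0 1 = 0 ∧ X 1 0 = 0 ∧ X 1 1 = 0 := by
  constructor
  · rintro rfl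
    simp
  · rintro ⟨h1, h2, h3, h4⟩
    exact mat_ext_two h1 h2 h3 h4

theorem nil_case : ∀ a b c d : ZMod 2,
    (a * a + b * c = 0 ∧ a * b + b * d = 0 ∧ c * a + d * c = 0 ∧ c * b + d * d = 0) →
    (a = 0 ∧ b = 0 ∧ c = 0 ∧ d = 0) ∨ (a = 0 ∧ b = 1 ∧ c = 0 ∧ d = 0) ∨
    (a = 0 ∧ b = 0 ∧ c = 1 ∧ d = 0) ∨ (a = 1 ∧ b = 1 ∧ c = 1 ∧ d = 1) := by
  intro a b c d
  have h2 : ∀ x : ZMod 2, x = 0 ∨ x = 1 := by decide
  rcases h2 a with rfl | rfl <;> rcases h2 b with rfl | rfl <;> rcases h2 c with rfl | rfl <;>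
    rcases h2 d with rfl | rfl <;> decide

theorem scalar_case (a b c d e f g h : ZMod 2)
    (h1 : a * a + b * c = 0 ∧ a * b + b * d = 0 ∧ c * a + d * c = 0 ∧ c * b + d * d = 0)
    (h2 : e * e + f * g = 0 ∧ e * f + f * h = 0 ∧ g * e + h * g = 0 ∧ g * f + h * h = 0)
    (h3 : a * e + b * g = 0 ∧ a * f + b * h = 0 ∧ c * e + d * g = 0 ∧ c * f + d * h = 0)
    (h4 : ¬ (a = 0 ∧ b = 0 ∧ c = 0 ∧ d = 0)) (h5 : ¬ (e = 0 ∧ f = 0 ∧ g = 0 ∧ h = 0)) :
    a = e ∧ b = f ∧ c = g ∧ d = h := by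
  rcases nil_case _ _ _ _ h1 with h | ⟨rfl, rfl, rfl, rfl⟩ | ⟨rfl, rfl, rfl, rfl⟩ |
      ⟨rfl, rfl, rfl, rfl⟩
  · exact absurd h h4
  all_goals
    rcases nil_case _ _ _ _ h2 with h | ⟨rfl, rfl, rfl, rfl⟩ | ⟨rfl, rfl, rfl, rfl⟩ |
        ⟨rfl, rfl, rfl, rfl⟩
    · exact absurd h h5
    all_goals
      clear h1 h2 h4 h5
      revert h3
      decide

/-- over `𝔽₂`, orthogonal nonzero nilpotent `2 × 2` matrices are equal -/
theorem mat_eq {A B : Matrix (Fin 2) (Fin 2) (ZMod 2)} (hA : A * A = 0) (hB : B * B = 0)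
    (hAB : A * B = 0) (hA0 : A ≠ 0) (hB0 : B ≠ 0) : A = B := by
  rw [mat_zero_iff] at hA hB hAB
  rw [Ne, mat_zero_iff] at hA0 hB0
  simp only [Matrix.mul_apply, Fin.sum_univ_two] at hA hB hAB
  obtain ⟨h1, h2, h3, h4⟩ := scalar_case _ _ _ _ _ _ _ _ hA hB hAB hA0 hB0
  exact mat_ext_two h1 h2 h3 h4

theorem neg_eq_two : ∀ x : ZMod (2 ^ 1), -x = x := by
  show ∀ x : ZMod 2, -x = x
  decide

theorem trace_case : ∀ a b c d : ZMod 2,
    (a * a + b * c = 0 ∧ a * b + b * d = 0 ∧ c * a + d * c = 0 ∧ c * b + d * d = 0) →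
    a + d = 0 := by decide

theorem trace_eq_zero {A : Matrix (Fin 2) (Fin 2) (ZMod 2)} (hA : A * A = 0) : A.trace = 0 := by
  rw [mat_zero_iff] at hA
  simp only [Matrix.mul_apply, Fin.sum_univ_two] at hA
  rw [Matrix.trace_fin_two]
  exact trace_case _ _ _ _ hA

end Matrices

section Local

variable {S : Finset ℕ} {a : ℕ → ℤ} (D : GalData S a)

/-- the matrix modulo `2` -/
def mm (g : Γℚ) : Matrix (Fin 2) (Fin 2) (ZMod 2) := (D.ρ g).1.map PadicInt.toZMod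

theorem mm_mul {q : ℕ} (hq : q ∈ S) {P : ValuationSubring Qbar} (hP : P.LiesOverPrime q)
    {g h : Γℚ} (hg : g ∈ P.decompositionSubgroup ℚ) (hh : h ∈ P.decompositionSubgroup ℚ) :
    (mm D g - 1) * (mm D h - 1) = 0 := by
  have h1 := congrArg (LinearMap.toMatrix (Pi.basisFun (ZMod 2) (Fin 2))
    (Pi.basisFun (ZMod 2) (Fin 2))) (st_mod_two D hq hP hg hh)
  rw [LinearMap.toMatrix_mul, map_sub, map_sub, toMatrix_resRep, toMatrix_resRep,
    LinearMap.toMatrix_one, map_zero] at h1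
  exact h1

theorem repMod_eq_iff (g h : Γℚ) : repMod D 1 g = repMod D 1 h ↔ mm D g = mm D h := by
  rw [← Matrix.ext_iff, ← Matrix.ext_iff]
  refine forall_congr' fun i => forall_congr' fun j => ?_
  rw [repMod_apply, repMod_apply, mm, mm, Matrix.map_apply, Matrix.map_apply, ← sub_eq_zero,
    ← map_sub, toZModPow_eq_zero_iff, pow_one, ← toZMod_eq_zero_iff, map_sub, sub_eq_zero]

theorem mm_one : mm D 1 = 1 := by
  rw [mm, map_one]
  show ((1 : Matrix (Fin 2) (Fin 2) ℤ_[2])).map PadicInt.toZMod = 1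
  exact Matrix.map_one _ (map_zero _) (map_one _)

theorem disc_iff {r : Qbar} (hr : r ^ 2 = -((∏ q ∈ S, q : ℕ) : Qbar)) (g : Γℚ) :
    g r = r ↔ mm D g = 1 ∨ (mm D g).trace = 1 := by
  rw [D.disc r hr g]
  refine or_congr ?_ ?_
  · rw [← sub_eq_zero (a := mm D g), ← Matrix.ext_iff]
    refine forall_congr' fun i => forall_congr' fun j => ?_
    have e : mm D g i j = PadicInt.toZMod ((D.ρ g).1 i j) := rfl
    have e1 : PadicInt.toZMod ((1 : Matrix (Fin 2) (Fin 2) ℤ_[2]) i j) =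
        (1 : Matrix (Fin 2) (Fin 2) (ZMod 2)) i j := by
      rw [Matrix.one_apply, Matrix.one_apply]
      split_ifs <;> simp
    rw [Matrix.zero_apply]
    show PadicInt.toZMod ((D.ρ g).1 i j - (1 : Matrix (Fin 2) (Fin 2) ℤ_[2]) i j) = 0 ↔
      mm D g i j - (1 : Matrix (Fin 2) (Fin 2) (ZMod 2)) i j = 0
    rw [map_sub, e, e1]
  · rw [mm, Matrix.trace_fin_two, Matrix.trace_fin_two, map_add]
    rfl

theorem disc_iff_of_mem {q : ℕ} (hq : q ∈ S) {P : ValuationSubring Qbar} (hP : P.LiesOverPrime q)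
    {r : Qbar} (hr : r ^ 2 = -((∏ q ∈ S, q : ℕ) : Qbar)) {g : Γℚ}
    (hg : g ∈ P.decompositionSubgroup ℚ) : g r = r ↔ mm D g = 1 := by
  rw [disc_iff D hr]
  constructor
  · rintro (h | h)
    · exact h
    · exfalso
      have h1 := trace_eq_zero (mm_mul D hq hP hg hg)
      rw [Matrix.trace_sub, h, Matrix.trace_one, Fintype.card_fin] at h1
      revert h1
      decide
  · exact Or.inl

theorem valuation_odd {A : ValuationSubring Qbar} (hA : A.LiesOverPrime 2) {q : ℕ}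
    (hq : ¬ 2 ∣ q) : A.valuation (q : Qbar) = 1 := by
  have h1 : ((q : ℤ) : Qbar) ∉ A.nonunits := Fermat.Agent.Flat.DescentNT.intCast_notMem_nonunits A
    Nat.prime_two hA (fun h => hq (by exact_mod_cast h))
  rw [Int.cast_natCast] at h1
  have h2 : A.valuation (q : Qbar) ≤ 1 := (A.valuation_le_one_iff _).mpr (natCast_mem A q)
  by_contra h3
  exact h1 ((ValuationSubring.mem_nonunits_iff _).mpr (lt_of_le_of_ne h2 h3))

theorem valuation_sqrt {A : ValuationSubring Qbar} (hA : A.LiesOverPrime 2)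
    (hS : ∀ q ∈ S, q.Prime) (h2 : 2 ∈ S) {r : Qbar}
    (hr : r ^ 2 = -((∏ q ∈ S, q : ℕ) : Qbar)) :
    A.valuation r ^ 2 = A.valuation (2 : Qbar) ^ (2 * (0 : ℤ) + 1) := by
  rw [← map_pow, hr, Valuation.map_neg, mul_zero, zero_add, zpow_one,
    ← Finset.mul_prod_erase S (fun q => q) h2, Nat.cast_mul, map_mul, Nat.cast_prod, map_prod,
    Finset.prod_eq_one, mul_one]
  · norm_num
  · intro q hq
    obtain ⟨hq2, hqS⟩ := Finset.mem_erase.mp hq
    refine valuation_odd hA fun h => hq2 ?_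
    exact ((Nat.prime_dvd_prime_iff_eq Nat.prime_two (hS q hqS)).mp h).symm

end Local

section Main

variable {S : Finset ℕ} {a : ℕ → ℤ} (D : GalData S a)

theorem isUnit_of_ne_zero : ∀ x : ZMod (2 ^ 1), x ≠ 0 → IsUnit x := by
  show ∀ x : ZMod 2, x ≠ 0 → IsUnit x
  intro x hx
  have : Fact (Nat.Prime 2) := ⟨Nat.prime_two⟩
  exact isUnit_iff_ne_zero.mpr hx

include D in
/-- The action of inertia at `2` on a Galois module with the relations of `V`. -/
theorem act_facts (hS : ∀ q ∈ S, q.Prime) (h2 : 2 ∈ S) {S' : Finset ℕ} (hSS' : S ⊆ S')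
    {X : Type} [AddCommGroup X] [Module (ZMod (2 ^ 1)) X] [DistribMulAction Γℚ X]
    (hlev : ∃ L : IntermediateField ℚ Qbar, FiniteDimensional ℚ L ∧
      ∀ σ : Γℚ, (∀ y ∈ L, σ y = y) → ∀ x : X, σ • x = x)
    (hfrob : ∀ ℓ : ℕ, ℓ.Prime → ℓ ∉ S' → ∀ B : ValuationSubring Qbar, B.LiesOverPrime ℓ →
      ∀ σ : Γℚ, B.IsFrobeniusAt σ ℓ → ∀ x : X, σ • σ • x - a ℓ • (σ • x) + ℓ • x = 0)
    {A : ValuationSubring Qbar} (hA : A.LiesOverPrime 2) {r : Qbar}
    (hr : r ^ 2 = -((∏ q ∈ S, q : ℕ) : Qbar)) (hr0 : r ≠ 0) (hrσ : ∀ σ : Γℚ, σ r = r ∨ σ r = -r) :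
    ∃ t ∈ A.inertiaSubgroupIn ℚ, ((∀ x : X, t • x = x) → ∀ x : X, x = 0) ∧
      ∀ x : X, (∀ σ ∈ A.inertiaSubgroupIn ℚ, σ • (t • x - x) = t • x - x) ∧
        (∀ σ ∈ A.inertiaSubgroupIn ℚ, σ r = r → σ • x = x) ∧
        (∀ σ ∈ A.inertiaSubgroupIn ℚ, σ r = -r → σ • x = t • x) := by
  have hp2 : Fact (Nat.Prime 2) := ⟨Nat.prime_two⟩
  obtain ⟨Ψ, hΨ⟩ := exists_matrix_algHom hlev hfrob (finiteLevel_repMod D 1)
    (hasTraces_repMod D 1 h2 hSS') (span_repMod D 1 one_pos)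
  have hact : ∀ (g : Γℚ) (z : X), g • z = Ψ (repMod D 1 g) z := fun g z => by rw [hΨ]; rfl
  obtain ⟨t, ht, i, j, hij⟩ := D.ram 2 h2 A hA
  have hdec : ∀ σ ∈ A.inertiaSubgroupIn ℚ, σ ∈ A.decompositionSubgroup ℚ := fun σ hσ =>
    FlatOrd.InertiaLift.mem_decompositionSubgroup_of_mem_inertia A hσ
  have htne : mm D t ≠ 1 := by
    intro h1
    apply hij
    rw [← toZMod_eq_zero_iff, Matrix.sub_apply, map_sub]
    have h3 := congrFun (congrFun h1 i) j
    rw [mm, Matrix.map_apply] at h3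
    rw [h3, Matrix.one_apply, Matrix.one_apply]
    split_ifs <;> simp
  have hcase1 : ∀ σ ∈ A.inertiaSubgroupIn ℚ, σ r = r → repMod D 1 σ = 1 := by
    intro σ hσ hs
    rw [← map_one (repMod D 1), repMod_eq_iff, mm_one]
    exact (disc_iff_of_mem D h2 hA hr (hdec σ hσ)).mp hs
  have hcase2 : ∀ σ ∈ A.inertiaSubgroupIn ℚ, σ r = -r → repMod D 1 σ = repMod D 1 t := by
    intro σ hσ hs
    rw [repMod_eq_iff]
    have hne : mm D σ ≠ 1 := by
      intro h3
      have h4 := (disc_iff_of_mem D h2 hA hr (hdec σ hσ)).mpr h3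
      rw [hs] at h4
      exact hr0 (self_eq_neg.mp h4.symm)
    have h5 := mat_eq (mm_mul D h2 hA (hdec σ hσ) (hdec σ hσ))
      (mm_mul D h2 hA (hdec t ht) (hdec t ht)) (mm_mul D h2 hA (hdec σ hσ) (hdec t ht))
      (sub_ne_zero.mpr hne) (sub_ne_zero.mpr htne)
    exact sub_left_inj.mp h5
  have hprod : ∀ σ ∈ A.inertiaSubgroupIn ℚ,
      repMod D 1 σ * (repMod D 1 t - 1) = repMod D 1 t - 1 := by
    intro σ hσ
    have h3 : repMod D 1 (t * t) = repMod D 1 1 := by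
      rw [repMod_eq_iff, mm_one]
      have h4 := mm_mul D h2 hA (hdec t ht) (hdec t ht)
      have h5 : mm D (t * t) = mm D t * mm D t := by
        rw [mm, map_mul]
        exact Matrix.map_mul
      have h6 : (mm D t) * (mm D t) = (mm D t - 1) * (mm D t - 1) + (mm D t + mm D t) - 1 := by
        noncomm_ring
      rw [h5, h6, h4, zero_add, CharTwo.add_self_eq_zero, zero_sub, CharTwo.neg_eq]
    rw [map_mul, map_one] at h3
    rcases hrσ σ with hs | hs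
    · rw [hcase1 σ hσ hs, one_mul]
    · rw [hcase2 σ hσ hs, mul_sub, h3, mul_one]
      have h8 : ∀ X : Matrix (Fin 2) (Fin 2) (ZMod (2 ^ 1)), -X = X := fun X => by
        ext i j
        exact neg_eq_two _
      rw [← h8 (1 - repMod D 1 t), neg_sub]
  refine ⟨t, ht, fun htriv x => ?_, fun x => ⟨fun σ hσ => ?_, fun σ hσ hs => ?_, fun σ hσ hs => ?_⟩⟩
  · have hentry := entry_smul_of_scalar hlev hfrob (finiteLevel_repMod D 1)
      (hasTraces_repMod D 1 h2 hSS') (span_repMod D 1 one_pos) (g := t) (c := 1)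
      (fun z => by rw [one_smul]; exact htriv z) i j x
    have hu : IsUnit ((repMod D 1 t - ((1 : ℤ) : ZMod (2 ^ 1)) •
        (1 : Matrix (Fin 2) (Fin 2) (ZMod (2 ^ 1)))) i j) := by
      apply isUnit_of_ne_zero
      intro h0
      apply hij
      have h9 : PadicInt.toZModPow 1 (((D.ρ t : Matrix (Fin 2) (Fin 2) ℤ_[2]) - 1) i j) = 0 := by
        rw [← h0, Matrix.sub_apply, map_sub, Matrix.sub_apply, repMod_apply, Int.cast_one, one_smul,
          Matrix.one_apply, Matrix.one_apply]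
        split_ifs <;> simp
      rw [toZModPow_eq_zero_iff, pow_one] at h9
      exact h9
    obtain ⟨u, hu⟩ := hu
    rw [← hu] at hentry
    have h10 := congrArg ((↑u⁻¹ : ZMod (2 ^ 1)) • ·) hentry
    simp only [smul_smul, Units.inv_mul, one_smul, smul_zero] at h10
    exact h10
  · have e2 : t • x - x = Ψ (repMod D 1 t - 1) x := by
      rw [map_sub, map_one, LinearMap.sub_apply, Module.End.one_apply, hact]
    rw [e2, hact, ← Module.End.mul_apply, ← map_mul, hprod σ hσ]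
  · rw [hact, hcase1 σ hσ hs, map_one, Module.End.one_apply]
  · rw [hact, hact, hcase2 σ hσ hs]

include D in
/-- **`V` does not occur in `J₀(M)[2]`, `M` odd.** -/
theorem eq_zero_of_isEigen (hS : ∀ q ∈ S, q.Prime) (h2 : 2 ∈ S) {M : ℕ} [NeZero M] (hM : ¬ 2 ∣ M)
    {S' : Finset ℕ} (hSS' : S ⊆ S') (hMS : ∀ q : ℕ, q.Prime → q ∣ M → q ∈ S') {y : JZero M}
    (hy : 2 • y = 0) (hye : IsEigen M S' a y) : y = 0 := by
  have hp2 : Fact (Nat.Prime 2) := ⟨Nat.prime_two⟩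
  let Z : AddSubgroup (JZero M) :=
    { carrier := {z | 2 ^ 1 • z = 0 ∧ IsEigen M S' a z}
      zero_mem' := ⟨nsmul_zero _, IsEigen.zero⟩
      add_mem' := fun {z z'} h h' => ⟨by rw [nsmul_add, h.1, h'.1, add_zero], h.2.add h'.2⟩
      neg_mem' := fun {z} h => ⟨by rw [neg_nsmul, h.1, neg_zero], h.2.neg⟩ }
  have hstab : ∀ (g : Γℚ) (z : JZero M), z ∈ Z → g • z ∈ Z := fun g z hz =>
    ⟨by rw [← jz_smul_nsmul, hz.1, jz_smul_zero], hz.2.smul g⟩
  letI : DistribMulAction Γℚ Z := stableAction Z hstab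
  letI : Module (ZMod (2 ^ 1)) Z := AddCommGroup.zmodModule fun z => Subtype.ext z.2.1
  obtain ⟨L, hL, h⟩ := jzero_finite_level M 2 Nat.prime_two 1
  -- a place above `2`
  obtain ⟨A, hA⟩ := FrobExists.exists_liesOverPrime Qbar Nat.prime_two
  -- the square root
  obtain ⟨r, hr⟩ : ∃ r : Qbar, r ^ 2 = -((∏ q ∈ S, q : ℕ) : Qbar) :=
    IsAlgClosed.exists_pow_nat_eq _ two_pos
  have hr0 : r ≠ 0 := by
    rintro rfl
    rw [zero_pow two_ne_zero, zero_eq_neg, Nat.cast_eq_zero, Finset.prod_eq_zero_iff] at hr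
    obtain ⟨q, hq, hq0⟩ := hr
    exact (hS q hq).ne_zero hq0
  have hrσ : ∀ σ : Γℚ, σ r = r ∨ σ r = -r := by
    intro σ
    have h3 : (σ r) ^ 2 = r ^ 2 := by
      rw [← map_pow, hr, map_neg, map_natCast]
    exact sq_eq_sq_iff_eq_or_eq_neg.mp h3
  obtain ⟨t, ht, hzero, hfacts⟩ := act_facts (X := Z) D hS h2 hSS'
    ⟨L, hL, fun σ hσ z => Subtype.ext (h σ hσ z z.2.1)⟩ (by
      intro ℓ hℓ hℓS B hB σ hσ z
      apply Subtype.ext
      have hℓN : ¬ ℓ ∣ M * 2 := by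
        intro hd
        rcases (Nat.Prime.dvd_mul hℓ).mp hd with hd | hd
        · exact hℓS (hMS ℓ hℓ hd)
        · exact hℓS ((Nat.prime_dvd_prime_iff_eq hℓ Nat.prime_two).mp hd ▸ hSS' h2)
      have h1 := jzero_frobenius Nat.prime_two hℓ hℓN hB hσ z.2.1
      rw [(z.2.2.smul σ) ⟨ℓ, hℓ⟩ hℓS] at h1
      exact h1) hA hr hr0 hrσ
  -- `t` acts trivially on `Z`
  have htriv : ∀ z : Z, t • z = z := by
    intro z
    obtain ⟨hf1, hf2, hf3⟩ := hfacts z
    have hl0 : t • (z : JZero M) - z = 0 := by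
      have hlZ : t • (z : JZero M) - z ∈ Z := Z.sub_mem (hstab t z z.2) z.2
      refine jZero_eq_zero hM hA (n := 2 ^ 1) (by norm_num) (x := (z : JZero M)) z.2.1 hlZ.1 ?_ ?_
        hr0 (valuation_sqrt hA hS h2 hr) (fun σ _ => hrσ σ) ?_ ?_
      · rw [← two_nsmul]
        exact hlZ.1
      · intro σ hσ
        exact congrArg Subtype.val (hf1 σ hσ)
      · intro σ hσ hs
        exact congrArg Subtype.val (hf2 σ hσ hs)
      · intro σ hσ hs
        rw [add_sub_cancel]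
        exact congrArg Subtype.val (hf3 σ hσ hs)
    exact Subtype.ext (sub_eq_zero.mp hl0)
  exact congrArg Subtype.val (hzero htriv ⟨y, ⟨by rw [pow_one]; exact hy, hye⟩⟩)

end Main

end Fermat.Agent.P2.Flat2
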