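import Mathlib
import Fermat.Agent.P2.Mazur2k.JZeroGal
import Fermat.Agent.GAL.SupportWiring
import Fermat.Agent.GAL.Support
import Fermat.Agent.DR.AllInputs

/-!
# Support of the torsion of `J₀(M)`, residual form
-/

set_option autoImplicit false
set_option linter.unusedSectionVars false
set_option linter.style.haveILetI false

open ModularCurve

noncomputable section

namespace Fermat.Agent.P2.Flat2

open Mazur2k Fermat.Agent.S30Wiring

local notation "Qbar" => AlgebraicClosure ℚ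
local notation "Γℚ" => (AlgebraicClosure ℚ ≃ₐ[ℚ] AlgebraicClosure ℚ)

/-- the eigensystem `a` on the anemic algebra -/
def anemLam (S : Finset ℕ) (a : ℕ → ℤ) : AnemicAlg S →+* ℤ :=
  (MvPolynomial.aeval (R := ℤ) fun ℓ : {ℓ : Nat.Primes // (ℓ : ℕ) ∉ S} =>
    a ((ℓ : Nat.Primes) : ℕ)).toRingHom

theorem anemLam_X (S : Finset ℕ) (a : ℕ → ℤ) (ℓ : {ℓ : Nat.Primes // (ℓ : ℕ) ∉ S}) :
    anemLam S a (MvPolynomial.X ℓ) = a ((ℓ : Nat.Primes) : ℕ) :=
  MvPolynomial.aeval_X _ _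

/-- **Support**, residual form. -/
theorem exists_isEigen {M : ℕ} [NeZero M] {p : ℕ} (hp : p.Prime) {S : Finset ℕ}
    (hMS : ∀ q : ℕ, q.Prime → q ∣ M → q ∈ S) (a : ℕ → ℤ)
    (h : ∀ t : AnemicAlg S, anemicEval (N := M) hMS t = 0 → (p : ℤ) ∣ anemLam S a t) :
    ∃ y : JZero M, y ≠ 0 ∧ p • y = 0 ∧ IsEigen M S a y := by
  have hFact : Fact p.Prime := ⟨hp⟩
  letI := heckeModuleBar M
  have hhs : GAL.HomSupport M (JZero M) :=
    (DR.allInputs.jan M).homSupport (DR.allInputs.comm M)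
  obtain ⟨P, _, _, _, _, hP1, hP2⟩ := GAL.exists_lattice_of_homSupport (N := M) hhs hMS
  let χ : AnemicAlg S →+* ZMod p := (Int.castRingHom (ZMod p)).comp (anemLam S a)
  have hχsurj : Function.Surjective χ := by
    intro x
    obtain ⟨n, rfl⟩ := ZMod.intCast_surjective x
    exact ⟨(n : AnemicAlg S), by rw [map_intCast]⟩
  let 𝔪 : Ideal (AnemicAlg S) := RingHom.ker χ
  have hmem : ∀ t, t ∈ 𝔪 ↔ (p : ℤ) ∣ anemLam S a t := by
    intro t
    rw [RingHom.mem_ker, RingHom.comp_apply, eq_intCast, ZMod.intCast_zmod_eq_zero_iff_dvd]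
  have h𝔪 : 𝔪.IsMaximal := RingHom.ker_isMaximal_of_surjective χ hχsurj
  have hp𝔪 : (p : AnemicAlg S) ∈ 𝔪 := by
    rw [hmem, map_natCast]
  obtain ⟨x, hx1, hx2⟩ := GAL.exists_torsion_mod (H := P) 𝔪 hp.ne_zero hp𝔪 fun t ht =>
    (hmem t).mpr (h t (hP1 t ht))
  -- the torsion
  letI modRJ : Module (AnemicAlg S) (JZero M) :=
    Module.compHom (JZero M) (anemicIncl S).toRingHom
  have hsmul : ∀ (t : AnemicAlg S) (x : JZero M), t • x = anemicIncl S t • x := fun _ _ => rfl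
  let T : Submodule (AnemicAlg S) (JZero M) := Submodule.torsionBy _ _ ((p : ℕ) : AnemicAlg S)
  have hT : ∀ x, x ∈ T ↔ p • x = 0 := by
    intro x
    rw [Submodule.mem_torsionBy_iff, Nat.cast_smul_eq_nsmul]
  have hfin : Finite T := by
    have h1 := (DR.allInputs.jan M).finite hp.pos
    exact (h1.subset fun x hx => (hT x).mp hx).to_subtype
  have hann : Module.annihilator (AnemicAlg S) T ≤ 𝔪 := by
    intro t ht
    by_contra htm
    have h1 : ∀ x : JZero M, p • x = 0 → anemicIncl S t • x = 0 := fun x hx =>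
      congrArg Subtype.val (Module.mem_annihilator.mp ht ⟨x, (hT x).mpr hx⟩)
    obtain ⟨c, b, hb, hcb⟩ := h𝔪.exists_inv htm
    apply hx1
    obtain ⟨y, hy⟩ := hP2 p hp.pos t h1 x
    obtain ⟨z, hz⟩ := hx2 b hb
    refine ⟨c • y + z, ?_⟩
    rw [nsmul_add, ← smul_comm c p y, ← hy, ← hz, ← mul_smul, ← add_smul, hcb, one_smul]
  obtain ⟨y, hy0, hy⟩ := GAL.exists_torsion_of_annihilator_le 𝔪 hann
  refine ⟨y, fun h0 => hy0 (Subtype.ext h0), (hT _).mp y.2, fun ℓ hℓ => ?_⟩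
  have h1 : (MvPolynomial.X ⟨ℓ, hℓ⟩ - ((a ℓ : ℤ) : AnemicAlg S)) ∈ 𝔪 := by
    rw [hmem, map_sub, anemLam_X, map_intCast, Int.cast_id, sub_self]
    exact dvd_zero _
  have h2 := congrArg Subtype.val (hy _ h1)
  have h3 : (MvPolynomial.X ⟨ℓ, hℓ⟩ - ((a ℓ : ℤ) : AnemicAlg S)) • (y : JZero M) = 0 := h2
  rw [sub_smul, sub_eq_zero, Int.cast_smul_eq_zsmul, hsmul, anemicIncl,
    MvPolynomial.rename_X] at h3
  rw [← h3]
  exact (heckeModuleBar_heckeGen_smul (DR.allInputs.comm M) ℓ (y : JZero M)).symm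

end Fermat.Agent.P2.Flat2
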