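import Mathlib
import Fermat.Agent.P2.Flat2.Main
import Fermat.Agent.P2.Flat2.Support

/-!
# Every system of eigenvalues congruent to the auxiliary curve modulo `2` is new at `2`
-/

set_option autoImplicit false
set_option linter.unusedSectionVars false

open ModularCurve

noncomputable section

namespace Fermat.Agent.P2.Flat2

open Sel Mazur2k Fermat.Agent.S30Wiring

variable {S : Finset ℕ} {a : ℕ → ℤ} (D : GalData S a)

include D in
/-- **The eigensystem of the auxiliary curve modulo `2` does not occur in odd level**: there is a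
Hecke polynomial killing `S₂(Γ₀(M))` with odd eigenvalue. -/
theorem exists_kill (hS : ∀ q ∈ S, q.Prime) (h2 : 2 ∈ S) {M : ℕ} [NeZero M] (hM : ¬ 2 ∣ M)
    {S' : Finset ℕ} (hSS' : S ⊆ S') (hMS : ∀ q : ℕ, q.Prime → q ∣ M → q ∈ S') :
    ∃ t : AnemicAlg S', anemicEval (N := M) hMS t = 0 ∧ ¬ (2 : ℤ) ∣ anemLam S' a t := by
  by_contra hcon
  push Not at hcon
  obtain ⟨y, hy0, hy2, hye⟩ := exists_isEigen (p := 2) Nat.prime_two hMS a
    (fun t ht => by exact_mod_cast hcon t ht)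
  exact hy0 (eq_zero_of_isEigen D hS h2 hM hSS' hMS hy2 hye)

/-- `anemicIncl` lands in `anem`. -/
theorem anemicIncl_mem {M : ℕ} {S' : Finset ℕ} (hM : ∀ q : ℕ, q.Prime → q ∣ M → q ∈ S')
    (t : AnemicAlg S') : anemicIncl S' t ∈ anem M := by
  induction t using MvPolynomial.induction_on with
  | C c =>
    rw [anemicIncl, MvPolynomial.rename_C]
    exact (anem M).algebraMap_mem c
  | add x y hx hy =>
    rw [map_add]
    exact (anem M).add_mem hx hy
  | mul_X x ℓ hx =>
    rw [map_mul]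
    refine (anem M).mul_mem hx ?_
    rw [anemicIncl, MvPolynomial.rename_X]
    exact Algebra.subset_adjoin ⟨ℓ, fun h => ℓ.2 (hM _ ℓ.1.2 h), rfl⟩

theorem lam_anemicIncl (S' : Finset ℕ) (t : AnemicAlg S') :
    lam a (anemicIncl S' t) = anemLam S' a t := by
  induction t using MvPolynomial.induction_on with
  | C c =>
    rw [anemicIncl, MvPolynomial.rename_C]
    simp [lam, anemLam]
  | add x y hx hy => rw [map_add, map_add, map_add, hx, hy]
  | mul_X x ℓ hx =>
    rw [map_mul, map_mul, map_mul, hx, anemicIncl, MvPolynomial.rename_X, anemLam_X]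
    congr 1
    exact MvPolynomial.aeval_X _ _

include D in
/-- **Every system congruent to `a` modulo `2` is new at `2`.** -/
theorem exists_kill_systems (hS : ∀ q ∈ S, q.Prime) (h2 : 2 ∈ S) {M : ℕ} [NeZero M] (hM : ¬ 2 ∣ M)
    {L : ℕ} [NeZero L] (Q : Finset ℕ) (ε : ℕ → ℤ) {S' : Finset ℕ} (hSS' : S ⊆ S')
    (hMS : ∀ q : ℕ, q.Prime → q ∣ M → q ∈ S') (hLS : ∀ q : ℕ, q.Prime → q ∣ L → q ∈ S') :
    ∃ t : AnemicAlg S', anemicEval (N := M) hMS t = 0 ∧ ¬ (2 : ℤ) ∣ anemLam S' a t ∧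
      ∀ f : Systems L Q ε a,
        f.1 (Ideal.Quotient.mk _ ⟨anemicIncl S' t, anemicIncl_mem hLS t⟩) ≠ 0 := by
  obtain ⟨t, ht, hodd⟩ := exists_kill D hS h2 hM hSS' hMS
  refine ⟨t, ht, hodd, fun f hf => ?_⟩
  have h1 := (f.2 ⟨anemicIncl S' t, anemicIncl_mem hLS t⟩).mp (by
    rw [hf, norm_zero]
    exact one_pos)
  rw [lam_anemicIncl] at h1
  exact hodd h1.two_dvd

end Fermat.Agent.P2.Flat2
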