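import Mathlib
import Fermat.Agent.P2.Flat2.Final
import Fermat.Agent.GAL.StrongSupport

/-!
# Newness at `2`: forms of the statement for ring homomorphisms
-/

set_option autoImplicit false
set_option linter.unusedSectionVars false

open ModularCurve IsLocalRing

noncomputable section

namespace Fermat.Agent.P2.Flat2

open Sel Mazur2k Fermat.Agent.S30Wiring

variable {S : Finset ℕ} {a : ℕ → ℤ} (D : GalData S a)

/-- If `θ(t_ℓ) ≡ a_ℓ` for all `ℓ ∤ L` then `θ(t) ≡ a(t)`. -/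
theorem sub_mem_maximalIdeal {L : ℕ} {S' : Finset ℕ} (hLS : ∀ q : ℕ, q.Prime → q ∣ L → q ∈ S')
    {O : Type*} [CommRing O] [IsLocalRing O] (θ : anem L →+* O)
    (hθ : ∀ (ℓ : Nat.Primes) (hℓ : ¬ (ℓ : ℕ) ∣ L),
      θ ⟨heckeGen ℓ, Algebra.subset_adjoin ⟨ℓ, hℓ, rfl⟩⟩ - (a ℓ : O) ∈ maximalIdeal O)
    (t : AnemicAlg S') :
    θ ⟨anemicIncl S' t, anemicIncl_mem hLS t⟩ - (anemLam S' a t : O) ∈ maximalIdeal O := by
  let ι : AnemicAlg S' →+* anem L :=
    { toFun := fun t => ⟨anemicIncl S' t, anemicIncl_mem hLS t⟩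
      map_one' := Subtype.ext (map_one _)
      map_mul' := fun x y => Subtype.ext (map_mul _ x y)
      map_zero' := Subtype.ext (map_zero _)
      map_add' := fun x y => Subtype.ext (map_add _ x y) }
  have key : (residue O).comp (θ.comp ι) =
      ((residue O).comp (Int.castRingHom O)).comp (anemLam S' a) := by
    refine MvPolynomial.ringHom_ext (fun z => ?_) fun ℓ => ?_
    · exact RingHom.congr_fun (RingHom.ext_int
        (((residue O).comp (θ.comp ι)).comp MvPolynomial.C)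
        ((((residue O).comp (Int.castRingHom O)).comp (anemLam S' a)).comp MvPolynomial.C)) z
    · have h1 := hθ ℓ.1 fun h => ℓ.2 (hLS _ ℓ.1.2 h)
      rw [← residue_eq_zero_iff, map_sub, sub_eq_zero] at h1
      rw [RingHom.comp_apply, RingHom.comp_apply, RingHom.comp_apply, anemLam_X,
        RingHom.comp_apply, eq_intCast, ← h1]
      congr 2
      apply Subtype.ext
      show anemicIncl S' (MvPolynomial.X ℓ) = heckeGen ℓ.1
      rw [anemicIncl, MvPolynomial.rename_X]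
      rfl
  have h2 := RingHom.congr_fun key t
  rw [← residue_eq_zero_iff, map_sub, sub_eq_zero]
  exact h2

include D in
/-- **Newness at `2`**, for a ring homomorphism `θ : anem L → O` with `θ(t_ℓ) ≡ a_ℓ`. -/
theorem exists_kill_ringHom (hS : ∀ q ∈ S, q.Prime) (h2 : 2 ∈ S) {M : ℕ} [NeZero M]
    (hM : ¬ 2 ∣ M) {L : ℕ} {S' : Finset ℕ} (hSS' : S ⊆ S')
    (hMS : ∀ q : ℕ, q.Prime → q ∣ M → q ∈ S') (hLS : ∀ q : ℕ, q.Prime → q ∣ L → q ∈ S')
    {O : Type*} [CommRing O] [IsLocalRing O] (hO : (2 : O) ∈ maximalIdeal O) (θ : anem L →+* O)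
    (hθ : ∀ (ℓ : Nat.Primes) (hℓ : ¬ (ℓ : ℕ) ∣ L),
      θ ⟨heckeGen ℓ, Algebra.subset_adjoin ⟨ℓ, hℓ, rfl⟩⟩ - (a ℓ : O) ∈ maximalIdeal O) :
    ∃ x : anem L, CuspForm.heckeEvalForms M 2 (x : HeckeAlg) = 0 ∧ IsUnit (θ x) := by
  obtain ⟨t, ht, hodd⟩ := exists_kill D hS h2 hM hSS' hMS
  refine ⟨⟨anemicIncl S' t, anemicIncl_mem hLS t⟩, ?_, ?_⟩
  · have h1 := Fermat.Agent.GAL.StrongSupport.coe_anemicEval (N := M) hMS t
    rw [ht, ZeroMemClass.coe_zero] at h1
    exact (ZeroMemClass.coe_eq_zero).mp h1.symm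
  · have h1 := sub_mem_maximalIdeal hLS θ hθ t
    have h3 : IsUnit ((anemLam S' a t : ℤ) : O) := by
      obtain ⟨k, hk⟩ := Int.not_even_iff_odd.mp fun h => hodd h.two_dvd
      rw [hk]
      by_contra hu
      have h4 : ((2 * k + 1 : ℤ) : O) ∈ maximalIdeal O := hu
      have h5 : (1 : O) ∈ maximalIdeal O := by
        have h6 : (1 : O) = ((2 * k + 1 : ℤ) : O) - 2 * (k : O) := by push_cast; ring
        rw [h6]
        exact Ideal.sub_mem _ h4 (Ideal.mul_mem_right _ _ hO)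
      exact (Ideal.ne_top_iff_one _).mp (maximalIdeal.isMaximal O).ne_top h5
    by_contra hu
    have h7 : θ ⟨anemicIncl S' t, anemicIncl_mem hLS t⟩ ∈ maximalIdeal O := hu
    have h8 := Ideal.sub_mem _ h7 h1
    rw [sub_sub_cancel] at h8
    exact h8 h3

end Fermat.Agent.P2.Flat2
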